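import Fermat.Agent.X0Analytic.EtaProduct
import Fermat.Agent.XHLite.Glue.UnitSeries

/-!
# The second coefficient of `Δ(q)/Δ(q^p)` modulo `ℓ`

The series is `q^(1-p) (1 - 24 q + ⋯)`, so for a prime `ℓ ≥ 5` its reduction is not a constant
times an `ℓ`-th power.
-/

set_option autoImplicit false

noncomputable section

open ModularCurve Polynomial

namespace Fermat.Agent.Mazur.Cusp

open Fermat.Agent.XHLite (unitSer deltaUnit expandUnit qUnit psUnit coe_psUnit)

theorem qExpand_powerSeries {F : Type*} [CommRing F] (p : ℕ) [NeZero p] (P : PowerSeries F) :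
    qExpand F p (HahnSeries.ofPowerSeries ℤ F P) =
      HahnSeries.ofPowerSeries ℤ F (PowerSeries.expand p (NeZero.ne p) P) := by
  ext n
  by_cases hd : (p : ℤ) ∣ n
  · obtain ⟨j, rfl⟩ := hd
    rw [qExpand_coeff_mul]
    rcases le_or_gt 0 j with h | h
    · lift j to ℕ using h
      rw [← Nat.cast_mul, HahnSeries.ofPowerSeries_apply_coeff,
        HahnSeries.ofPowerSeries_apply_coeff, PowerSeries.coeff_expand_mul]
    · rw [ofPowerSeries_coeff_of_neg _ h, ofPowerSeries_coeff_of_neg _
        (mul_neg_of_pos_of_neg (by exact_mod_cast NeZero.pos p) h)]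
  · rw [qExpand_coeff_of_not_dvd p _ hd]
    rcases le_or_gt 0 n with h | h
    · lift n to ℕ using h
      rw [HahnSeries.ofPowerSeries_apply_coeff]
      exact (PowerSeries.coeff_expand_of_not_dvd p (NeZero.ne p) P
        (fun e => hd (Int.natCast_dvd_natCast.mpr e))).symm
    · rw [ofPowerSeries_coeff_of_neg _ h]

/-- The `q`-coefficient of the eta product. -/
theorem coeff_one_etaProd : PowerSeries.coeff 1 etaProd = -1 := by
  have h := X0Analytic.tendsto_coeff_etaPoly 1
  have hconst : ∀ n : ℕ, 1 ≤ n → (X0Analytic.etaPoly n).coeff 1 = -1 := by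
    intro n hn
    induction n, hn using Nat.le_induction with
    | base =>
      simp [X0Analytic.etaPoly, Polynomial.coeff_one]
    | succ n hn ih =>
      rw [X0Analytic.etaPoly, Finset.prod_range_succ, ← X0Analytic.etaPoly, mul_sub, mul_one,
        Polynomial.coeff_sub, ih, Polynomial.coeff_mul_X_pow', if_neg (by omega), sub_zero]
  have h' : Filter.Tendsto (fun n => ((X0Analytic.etaPoly n).coeff 1 : ℂ)) Filter.atTop
      (nhds (((-1 : ℤ)) : ℂ)) :=
    tendsto_const_nhds.congr' (Filter.eventually_atTop.2 ⟨1, fun n hn => by simp only [hconst n hn]⟩)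
  exact_mod_cast (tendsto_nhds_unique h' h).symm

theorem coeff_one_etaProd_pow (n : ℕ) : PowerSeries.coeff 1 (etaProd ^ n) = -(n : ℤ) := by
  rw [PowerSeries.coeff_one_pow, coeff_one_etaProd, constantCoeff_etaProd, one_pow]
  ring

/-- Modulo a prime, the series of `Δ(q)/Δ(q^p)` is `q^(1-p)` times a power series starting
`1 - 24 q`. -/
theorem exists_unit_shape (k : Type*) [CommRing k] (p : ℕ) [NeZero p] (hp : 2 ≤ p) :
    ∃ P : PowerSeries k, PowerSeries.constantCoeff P = 1 ∧ PowerSeries.coeff 1 P = -24 ∧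
      coeffMap (Int.castRingHom k) (unitSer p : LaurentSeries ℤ) =
        HahnSeries.single (1 - (p : ℤ)) 1 * HahnSeries.ofPowerSeries ℤ k P := by
  set η : PowerSeries ℤ := etaProd ^ 24 with hη
  have hη0 : PowerSeries.constantCoeff η = 1 := by
    rw [hη, map_pow, constantCoeff_etaProd, one_pow]
  set E : PowerSeries ℤ := PowerSeries.expand p (NeZero.ne p) η with hE
  have hE0 : PowerSeries.constantCoeff E = 1 := by
    rw [hE, PowerSeries.constantCoeff_expand, hη0]
  set P : PowerSeries ℤ := η * E.invOfUnit 1 with hP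
  have hPE : P * E = η := by
    rw [hP, mul_assoc, PowerSeries.invOfUnit_mul _ _ (by rw [hE0]; rfl), mul_one]
  have hP0 : PowerSeries.constantCoeff P = 1 := by
    have := congrArg (PowerSeries.constantCoeff (R := ℤ)) hPE
    rwa [map_mul, hE0, mul_one, hη0] at this
  have hP1 : PowerSeries.coeff 1 P = -24 := by
    have h := congrArg (PowerSeries.coeff (R := ℤ) 1) hPE
    have hE1 : PowerSeries.coeff 1 E = 0 := by
      rw [hE, PowerSeries.coeff_expand_of_not_dvd _ _ _ (by
        intro hd; have := Nat.le_of_dvd one_pos hd; omega)]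
    rw [PowerSeries.coeff_one_mul, hE1, hE0, hη, coeff_one_etaProd_pow] at h
    simpa using h
  have key : (unitSer p : LaurentSeries ℤ) =
      HahnSeries.single (1 - (p : ℤ)) 1 * HahnSeries.ofPowerSeries ℤ ℤ P := by
    have hd : (deltaUnit : LaurentSeries ℤ) =
        HahnSeries.single 1 1 * HahnSeries.ofPowerSeries ℤ ℤ η := by
      show ((qUnit * psUnit etaProd constantCoeff_etaProd ^ 24 : (LaurentSeries ℤ)ˣ) :
        LaurentSeries ℤ) = _
      rw [Units.val_mul, Units.val_pow_eq_pow_val, coe_psUnit, ← map_pow]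
      rfl
    have hde : (expandUnit p deltaUnit : LaurentSeries ℤ) =
        HahnSeries.single (p : ℤ) 1 * HahnSeries.ofPowerSeries ℤ ℤ E := by
      show qExpand ℤ p (deltaUnit : LaurentSeries ℤ) = _
      rw [hd, map_mul, qExpand_single, mul_one, hE, qExpand_powerSeries]
    show ((deltaUnit * (expandUnit p deltaUnit)⁻¹ : (LaurentSeries ℤ)ˣ) : LaurentSeries ℤ) = _
    rw [Units.val_mul, Units.mul_inv_eq_iff_eq_mul, hde, hd, mul_mul_mul_comm,
      HahnSeries.single_mul_single, ← map_mul, hPE, sub_add_cancel, one_mul]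
  refine ⟨P.map (Int.castRingHom k), ?_, ?_, ?_⟩
  · rw [← PowerSeries.coeff_zero_eq_constantCoeff, PowerSeries.coeff_map,
      PowerSeries.coeff_zero_eq_constantCoeff, hP0, map_one]
  · rw [PowerSeries.coeff_map, hP1]
    simp
  · rw [key, map_mul, coeffMap_single, map_one, coeffMap_ofPowerSeries]

/-- In characteristic `ℓ ≥ 5` the reduction is not a constant times an `ℓ`-th power. -/
theorem unit_ne_pow (k : Type*) [Field k] (ℓ : ℕ) [CharP k ℓ] (hℓ : ℓ.Prime) (hℓ5 : 5 ≤ ℓ)
    (p : ℕ) [NeZero p] (hp : 2 ≤ p) (c : k) (f : LaurentSeries k) :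
    coeffMap (Int.castRingHom k) (unitSer p : LaurentSeries ℤ) ≠
      HahnSeries.single 0 c * f ^ ℓ := by
  obtain ⟨P, hP0, hP1, hP⟩ := exists_unit_shape k p hp
  intro he
  rw [hP] at he
  set g := f.powerSeriesPart with hg
  have hf : f = HahnSeries.single f.order 1 * HahnSeries.ofPowerSeries ℤ k g :=
    (LaurentSeries.single_order_mul_powerSeriesPart f).symm
  set m : ℤ := ℓ * f.order - (1 - (p : ℤ)) with hm
  have he' : HahnSeries.ofPowerSeries ℤ k P =
      HahnSeries.single m 1 * HahnSeries.ofPowerSeries ℤ k (PowerSeries.C c * g ^ ℓ) := by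
    have h2 := congrArg (fun z => HahnSeries.single (-(1 - (p : ℤ))) (1 : k) * z) he
    rw [← mul_assoc, HahnSeries.single_mul_single, neg_add_cancel, mul_one,
      HahnSeries.single_zero_one, one_mul] at h2
    rw [h2, hf, mul_pow, HahnSeries.single_pow, one_pow, map_mul, map_pow,
      HahnSeries.ofPowerSeries_C, HahnSeries.C_apply, ← mul_assoc, ← mul_assoc, ← mul_assoc,
      HahnSeries.single_mul_single, HahnSeries.single_mul_single, HahnSeries.single_mul_single]
    simp only [nsmul_eq_mul, one_mul, mul_one, add_zero]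
    rw [show -(1 - (p : ℤ)) + (ℓ : ℤ) * f.order = m by rw [hm]; ring]
  have hcoef : ∀ n : ℕ, PowerSeries.coeff n P =
      (HahnSeries.ofPowerSeries ℤ k (PowerSeries.C c * g ^ ℓ)).coeff ((n : ℤ) - m) := by
    intro n
    rw [← HahnSeries.ofPowerSeries_apply_coeff (Γ := ℤ) P n, he', HahnSeries.coeff_single_mul, one_mul]
  -- only exponents divisible by `ℓ` occur
  have hmult : ∀ n : ℕ, ¬ ℓ ∣ n → PowerSeries.coeff n (g ^ ℓ) = 0 := by
    intro n hn
    have : ExpChar k ℓ := ExpChar.prime hℓ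
    have hfr : PowerSeries.map (frobenius k ℓ) (PowerSeries.expand ℓ hℓ.ne_zero g) = g ^ ℓ :=
      MvPowerSeries.map_frobenius_expand ℓ hℓ.ne_zero
    rw [← hfr, PowerSeries.coeff_map, PowerSeries.coeff_expand_of_not_dvd _ _ _ hn, map_zero]
  have hzero : ∀ z : ℤ, ¬ (ℓ : ℤ) ∣ z →
      (HahnSeries.ofPowerSeries ℤ k (PowerSeries.C c * g ^ ℓ)).coeff z = 0 := by
    intro z hz
    rcases lt_or_ge z 0 with hneg | hpos
    · exact ofPowerSeries_coeff_of_neg _ hneg
    · obtain ⟨n, rfl⟩ := Int.eq_ofNat_of_zero_le hpos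
      rw [HahnSeries.ofPowerSeries_apply_coeff, PowerSeries.coeff_C_mul,
        hmult n fun hd => hz (Int.natCast_dvd_natCast.2 hd), mul_zero]
  have hdm : (ℓ : ℤ) ∣ (0 : ℤ) - m := by
    by_contra hd
    have := hcoef 0
    rw [Nat.cast_zero, hzero _ hd, PowerSeries.coeff_zero_eq_constantCoeff, hP0] at this
    exact one_ne_zero this
  have hdm1 : ¬ (ℓ : ℤ) ∣ (1 : ℤ) - m := fun hd => by
    have h := dvd_sub hd hdm
    rw [show (1 : ℤ) - m - (0 - m) = 1 by ring] at h
    have := Int.le_of_dvd one_pos h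
    omega
  have h1 := hcoef 1
  rw [Nat.cast_one, hzero _ hdm1, hP1] at h1
  have h24 : ((24 : ℕ) : k) = 0 := by push_cast; linear_combination -h1
  rw [CharP.cast_eq_zero_iff k ℓ] at h24
  have h3 : ℓ ∣ 2 ^ 3 * 3 := by norm_num; exact h24
  rcases hℓ.dvd_mul.1 h3 with h | h
  · have := Nat.le_of_dvd two_pos (hℓ.dvd_of_dvd_pow h); omega
  · have := Nat.le_of_dvd (by norm_num) h; omega

end Fermat.Agent.Mazur.Cusp
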