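import Fermat.Agent.MazurPrinciple.HeckeRed
import Fermat.Agent.HeckeJ0.Inputs
import Fermat.Agent.Reduction.Igusa
import Fermat.Prelude.Def_ModularCurve_HeckeModule

/-!
# Classes of divisors that reduce to the zero divisor

The classes of degree zero divisors whose image in the special fibre is the zero divisor form a
Hecke stable subgroup of `J₀(N)` contained in the kernel of reduction.
-/

set_option autoImplicit false

noncomputable section

open AlgebraicCurve ModularCurve IsLocalRing

namespace Fermat.Agent.Mazur.Cusp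

local notation "Qbar" => AlgebraicClosure ℚ

variable {N ℓ : ℕ} [NeZero N] {A : ValuationSubring Qbar}

/-- The classes of degree zero divisors mapped to zero by the reduction of places. -/
def nullClasses (h : ReductionInputsModL A N) : AddSubgroup (JZero N) where
  carrier := {x | ∃ D : Divisor.degZero (K := Qbar) (F := modularFunctionFieldBar N),
    Pic0.mk D = x ∧
      Finsupp.mapDomain (placeReductionModL h) (D : Divisor Qbar (modularFunctionFieldBar N)) = 0}
  zero_mem' := ⟨0, Pic0.mk_zero, Finsupp.mapDomain_zero⟩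
  add_mem' := by
    rintro _ _ ⟨D, rfl, hD⟩ ⟨E, rfl, hE⟩
    refine ⟨D + E, Pic0.mk_add D E, ?_⟩
    rw [AddSubgroup.coe_add, Finsupp.mapDomain_add, hD, hE, add_zero]
  neg_mem' := by
    rintro _ ⟨D, rfl, hD⟩
    refine ⟨-D, rfl, ?_⟩
    rw [AddSubgroup.coe_neg, ← Finsupp.mapDomain.addMonoidHom_apply, map_neg,
      Finsupp.mapDomain.addMonoidHom_apply, hD, neg_zero]

omit [NeZero N] in
theorem reductionModL_eq_zero_of_mem {h : ReductionInputsModL A N} {x : JZero N}
    (hx : x ∈ nullClasses h) : reductionModL A N x = 0 := by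
  obtain ⟨D, rfl, hD⟩ := hx
  rw [reductionModL_mk h]
  refine (congrArg Pic0.mk (Subtype.ext ?_)).trans Pic0.mk_zero
  rw [coe_reductionDegZeroAlong]
  exact hD

/-- Prime-to-level Hecke operators preserve the null classes. -/
theorem heckeOperatorBar_mem [Fact ℓ.Prime] (hℓN : ¬ ℓ ∣ N) (hA : A.LiesOverPrime ℓ)
    {h : ReductionInputsModL A N} (q : Nat.Primes) (hq : ¬ (q : ℕ) ∣ N) {x : JZero N}
    (hx : x ∈ nullClasses h) : heckeOperatorBar N q x ∈ nullClasses h := by
  have : NeZero (q : ℕ) := ⟨q.2.ne_zero⟩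
  have : IsAlgClosed (ResidueField A) := Reduction.isAlgClosed_residueField
  have hF := Reduction.reductionFacts hℓN hA
  let M := Reduction.modularGoodModel A N hA hF
  have := Reduction.GoodModel.isFunctionField_bar M
  have := Reduction.GoodModel.isFunctionField_red M
  have := hF.char0.hasPrincipal
  have := hF.charL.hasPrincipal
  have := HeckeJ0.hasPrincipalDivisors_bar (N * (q : ℕ))
  obtain ⟨c, hc⟩ := hF.genus_le
  obtain ⟨D, rfl, hD⟩ := hx
  set R := Reduction.reductionMapOfSpec M (placeReductionModL h)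
    (isPlaceReductionModL_placeReductionModL h)
  rw [heckeOperatorBar_apply, HeckeJ0.heckeOperatorAlong_bar_eq, Pic0.correspondence_mk]
  exact ⟨_, rfl, MazurPrinciple.map_hecke_eq_zero (G := M) (HeckeJ0.alphaIntegral N q)
    (HeckeJ0.betaIntegral N q) R ⟨hF.char0.riemann, hc⟩ q.2 hq (Divisor.mem_degZero.mp D.2) hD⟩

/-- The null classes are stable under the prime-to-level Hecke algebra. -/
theorem rename_smul_mem [Fact ℓ.Prime] (hℓN : ¬ ℓ ∣ N) (hA : A.LiesOverPrime ℓ)
    {h : ReductionInputsModL A N} {ι : Type*} (g : ι → Nat.Primes)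
    (hg : ∀ i, ¬ (g i : ℕ) ∣ N) (t : MvPolynomial ι ℤ) {x : JZero N} (hx : x ∈ nullClasses h) :
    (letI := heckeModuleBar N; (MvPolynomial.rename g t : HeckeAlg) • x) ∈ nullClasses h := by
  let := heckeModuleBar N
  induction t using MvPolynomial.induction_on generalizing x with
  | C a => rw [MvPolynomial.rename_C, heckeModuleBar_C_smul]; exact zsmul_mem hx a
  | add s t hs ht => rw [map_add, add_smul]; exact add_mem (hs hx) (ht hx)
  | mul_X t i ht =>
    rw [map_mul, MvPolynomial.rename_X, mul_smul]
    refine ht ?_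
    rw [show (MvPolynomial.X (g i) : HeckeAlg) = heckeGen (g i) from rfl,
      heckeModuleBar_heckeGen_smul (HeckeJ0.heckeOperatorsCommuteBar N)]
    exact heckeOperatorBar_mem hℓN hA (g i) (hg i) hx

end Fermat.Agent.Mazur.Cusp
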