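import Fermat.Agent.Mazur.Moduli
import Fermat.Agent.Mazur.Cusp.Coeff
import Fermat.Agent.XHLite.Glue.DeltaQuot
import Fermat.Agent.XHLite.Glue.Bridge
import Fermat.Agent.Reduction.Igusa
import Fermat.Agent.X0Analytic.Genus
import Fermat.Prelude.Def_ModularCurve_ModularUnit
import Fermat.Agent.Frobenius.Exists

/-!
# The cuspidal class of `X₀(p)`

The cusps `0` and `∞` are rational, the modular unit `Δ(z)/Δ(pz)` has divisor
`(p - 1) ((0) - (∞))`, the class of `(0) - (∞)` is non-zero for `p ≥ 17`, and modulo a prime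
`ℓ ≥ 5` no `j`-fold multiple with `ℓ j ∣ p - 1` of it reduces to zero.
-/

set_option autoImplicit false

noncomputable section

open AlgebraicCurve ModularCurve IsLocalRing

namespace Fermat.Agent.Mazur.Cusp

open Fermat.Agent.Mazur.Moduli Fermat.Agent.FunctionFieldRR
open Fermat.Agent.X0Analytic (jEl embCusp exists_places_infty)
open Fermat.Agent.Gamma0Count (CosetSpace)
open Fermat.Agent.Reduction (dvs dvs_apply eq_dvs dvs_pow ιS redS)

local notation "Qbar" => AlgebraicClosure ℚ

/-- An embedding of `ℚ̄` in `ℂ`. -/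
def φc : Qbar →+* ℂ :=
  letI : Algebra ℚ Qbar := AlgebraicClosure.instAlgebra ℚ
  (IsAlgClosed.lift (R := ℚ) (M := ℂ) (S := Qbar)).toRingHom

variable {p : ℕ} [Fact p.Prime]

-- shortcuts for the instance search
local instance (priority := high) algebraBarCuspFast :
    Algebra Qbar ↥(modularFunctionFieldBar p) := inferInstance
local instance (priority := high) algebraLevelCuspFast :
    Algebra Qbar ↥(X0Analytic.FLevel Qbar p) := inferInstance
local instance (priority := high) algebraFullCuspFast {A : ValuationSubring Qbar} :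
    Algebra (ResidueField A) ↥(modularFunctionFieldFullC (ResidueField A) p) := inferInstance

instance isFunctionField_cusp : IsFunctionField Qbar ↥(modularFunctionFieldBar p) :=
  X0Analytic.isFunctionField (L := Qbar) (N := p) φc

theorem deg_place (P : Place Qbar ↥(modularFunctionFieldBar p)) : P.deg = 1 := deg_eq_one P

/-- Both cusps exist. -/
theorem exists_cusps : ∃ cI cZ : Place Qbar ↥(modularFunctionFieldBar p), IsCuspInf cI ∧ IsCuspZero cZ := by
  obtain ⟨pl, hpl⟩ := exists_places_infty (L := Qbar) (N := p) φc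
  refine ⟨_, pl (ModularGroup.S : CosetSpace p), isCuspInf_pl_one φc hpl, fun f hf => ?_,
    fun h => pl_S_ne_one φc hpl (eq_of_isCuspInf h (isCuspInf_pl_one φc hpl))⟩
  rw [show f = jEl Qbar p from Subtype.ext (hf.trans jEl_eq_coeffEmb.symm)]
  have h := hpl.2.1 (ModularGroup.S : CosetSpace p)
  rw [Place.ord_inv] at h
  have hpos := X0Analytic.minimalPeriod_pos_perm (X0Analytic.cosetPerm (N := p) ModularGroup.T)
    (ModularGroup.S : CosetSpace p)
  omega

omit [Fact p.Prime] in
theorem ne_of_isCusp {cI cZ : Place Qbar ↥(modularFunctionFieldBar p)} (hI : IsCuspInf cI) (hZ : IsCuspZero cZ) :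
    cZ ≠ cI := fun h => hZ.2 (h ▸ hI)

/-- The cusp `0` is rational. -/
theorem galAut_smul_cuspZero (σ : Qbar ≃ₐ[ℚ] Qbar) {cI cZ : Place Qbar ↥(modularFunctionFieldBar p)} (hI : IsCuspInf cI)
    (hZ : IsCuspZero cZ) : galAut p σ • cZ = cZ := by
  have hneg : (galAut p σ • cZ).ord (jEl Qbar p : ↥(modularFunctionFieldBar p)) < 0 := by
    have hj : galAut p σ • (jEl Qbar p : ↥(modularFunctionFieldBar p)) = jEl Qbar p := Subtype.ext (by
      rw [ModularCurve.coe_arithmeticGalois_smul, jEl_eq_coeffEmb, coeffEmb, coeffMap_coeffMap]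
      exact coeffMap_congr (RingHom.ext_rat _ _) _)
    rw [← hj, SemilinearAut.ord_smul]
    exact hZ.1 _ jEl_eq_coeffEmb
  rcases eq_or_eq_of_pole φc hI hZ hneg with h | h
  · exfalso
    have h2 : galAut p σ • cZ = galAut p σ • cI := by rw [h, galAut_smul_cuspInf σ hI]
    exact ne_of_isCusp hI hZ (MulAction.injective _ h2)
  · exact h

/-- The cuspidal class is rational. -/
theorem smul_cuspClass (σ : Qbar ≃ₐ[ℚ] Qbar) {cI cZ : Place Qbar ↥(modularFunctionFieldBar p)} (hI : IsCuspInf cI)
    (hZ : IsCuspZero cZ) : σ • classOf cZ cI = classOf cZ cI := by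
  rw [smul_classOf, galAut_smul_cuspZero σ hI hZ, galAut_smul_cuspInf σ hI]

/-- `(P) - (Q)`. -/
def diffDiv (P Q : Place Qbar ↥(modularFunctionFieldBar p)) : Divisor Qbar ↥(modularFunctionFieldBar p) := Finsupp.single P 1 - Finsupp.single Q 1

theorem degree_diffDiv (P Q : Place Qbar ↥(modularFunctionFieldBar p)) : Divisor.degree (diffDiv P Q) = 0 := by
  rw [diffDiv, map_sub, Divisor.degree_single, Divisor.degree_single, deg_place, deg_place,
    sub_self]

theorem classOf_eq_mk (P Q : Place Qbar ↥(modularFunctionFieldBar p)) :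
    classOf P Q = Pic0.mk ⟨diffDiv P Q, Divisor.mem_degZero.2 (degree_diffDiv P Q)⟩ := by
  rw [classOf, dif_pos (by rw [deg_place, deg_place])]
  rfl

theorem classOf_add (P Q R : Place Qbar ↥(modularFunctionFieldBar p)) : classOf P Q + classOf Q R = classOf P R := by
  rw [classOf_eq_mk, classOf_eq_mk, classOf_eq_mk, ← Pic0.mk_add]
  refine congrArg Pic0.mk (Subtype.ext ?_)
  show diffDiv P Q + diffDiv Q R = diffDiv P R
  rw [diffDiv, diffDiv, diffDiv, sub_add_sub_cancel]

theorem nsmul_classOf (n : ℕ) (P Q : Place Qbar ↥(modularFunctionFieldBar p)) :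
    n • classOf P Q = Pic0.mk ⟨n • diffDiv P Q, Divisor.mem_degZero.2 (by
      rw [map_nsmul, degree_diffDiv, smul_zero])⟩ := by
  rw [classOf_eq_mk]
  exact (QuotientAddGroup.mk_nsmul _ _ _).symm

theorem nsmul_classOf_eq_zero_iff (n : ℕ) (P Q : Place Qbar ↥(modularFunctionFieldBar p)) :
    n • classOf P Q = 0 ↔ Divisor.IsPrincipal (n • diffDiv P Q) := by
  rw [nsmul_classOf, Pic0.mk, QuotientAddGroup.eq_zero_iff, AddSubgroup.mem_addSubgroupOf]
  exact Iff.rfl

/-- The modular unit and its divisor. -/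
theorem exists_unit {cI cZ : Place Qbar ↥(modularFunctionFieldBar p)} (hI : IsCuspInf cI) (hZ : IsCuspZero cZ) :
    ∃ w : ↥(modularFunctionFieldBar p), w ≠ 0 ∧
      (w : LaurentSeries Qbar) =
        coeffMap (Int.castRingHom Qbar) (XHLite.unitSer p : LaurentSeries ℤ) ∧
      ∀ P : Place Qbar ↥(modularFunctionFieldBar p), ((p - 1) • diffDiv cZ cI) P = P.ord w := by
  classical
  have hp : p.Prime := Fact.out
  have : NeZero p := ⟨hp.ne_zero⟩
  obtain ⟨w, hw, hrep⟩ := XHLite.exists_isRep (L := Qbar) φc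
    (G := XHLite.deltaQuotEl (N := p) (e := p) dvd_rfl)
    (z := coeffMap (Int.castRingHom Qbar) (XHLite.unitSer p : LaurentSeries ℤ)) (by
      rw [XHLite.ser_deltaQuotEl, coeffMap_coeffMap]
      exact coeffMap_congr (RingHom.ext_int _ _) _)
  obtain ⟨P, hP0, -, hP⟩ := exists_unit_shape Qbar p hp.two_le
  have hPne : (HahnSeries.ofPowerSeries ℤ Qbar P) ≠ 0 := fun h => by
    have := congrArg (fun z => HahnSeries.coeff z ((0 : ℕ) : ℤ)) h
    simp only [HahnSeries.ofPowerSeries_apply_coeff, PowerSeries.coeff_zero_eq_constantCoeff, hP0,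
      HahnSeries.coeff_zero] at this
    exact one_ne_zero this
  have hw0 : w ≠ 0 := fun h => mul_ne_zero (HahnSeries.single_ne_zero one_ne_zero) hPne
    (hP ▸ hw.symm.trans (by rw [h]; rfl))
  have hord : cI.ord w = 1 - (p : ℤ) := by
    rw [hI, hw, hP, HahnSeries.order_mul (HahnSeries.single_ne_zero one_ne_zero) hPne,
      HahnSeries.order_single one_ne_zero]
    have h0 : (HahnSeries.ofPowerSeries ℤ Qbar P).order = 0 := by
      refine le_antisymm (HahnSeries.order_le_of_coeff_ne_zero (g := (0 : ℤ)) ?_) ?_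
      · rw [← Nat.cast_zero, HahnSeries.ofPowerSeries_apply_coeff,
          PowerSeries.coeff_zero_eq_constantCoeff, hP0]
        exact one_ne_zero
      · by_contra hlt
        exact mt HahnSeries.coeff_order_eq_zero.mp hPne
          (ofPowerSeries_coeff_of_neg P (not_le.mp hlt))
    rw [h0, add_zero]
  have hother : ∀ v : Place Qbar ↥(modularFunctionFieldBar p), v ≠ cI → v ≠ cZ → v.ord w = 0 := fun v h1 h2 => by
    refine hrep.ord_eq_zero φc (XHLite.deltaQuotEl_mul_inv _) v (le_of_not_gt fun h => ?_)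
    rcases eq_or_eq_of_pole φc hI hZ h with h' | h'
    exacts [h1 h', h2 h']
  refine ⟨w, hw0, hw, ?_⟩
  have : HasPrincipalDivisors Qbar ↥(modularFunctionFieldBar p) := hasPrincipalDivisors
  obtain ⟨W, hW, hWdeg⟩ := HasPrincipalDivisors.exists_divisor (K := Qbar) w hw0
  have hne := ne_of_isCusp hI hZ
  have hWeq : W = Finsupp.single cZ (W cZ) + Finsupp.single cI (1 - (p : ℤ)) := by
    refine Finsupp.ext fun v => ?_
    rw [Finsupp.add_apply]
    rcases eq_or_ne v cI with rfl | h1
    · rw [hW, hord, Finsupp.single_eq_same, Finsupp.single_eq_of_ne hne.symm, zero_add]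
    rcases eq_or_ne v cZ with rfl | h2
    · rw [Finsupp.single_eq_same, Finsupp.single_eq_of_ne hne, add_zero]
    · rw [hW, hother v h1 h2, Finsupp.single_eq_of_ne h2, Finsupp.single_eq_of_ne h1, add_zero]
  have hcZ : W cZ = ((p - 1 : ℕ) : ℤ) := by
    rw [hWeq, map_add, Divisor.degree_single, Divisor.degree_single, deg_place, deg_place,
      Nat.cast_one, mul_one, mul_one] at hWdeg
    push_cast [Nat.cast_sub hp.one_lt.le]
    linarith
  intro v
  rw [← hW v, hWeq, hcZ, diffDiv, nsmul_sub, Finsupp.smul_single, Finsupp.smul_single,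
    Finsupp.sub_apply, Finsupp.add_apply, nsmul_one,
    show (1 - (p : ℤ)) = -((p - 1 : ℕ) : ℤ) by push_cast [Nat.cast_sub hp.one_lt.le]; ring,
    Finsupp.single_neg, Finsupp.neg_apply]
  ring

/-- The order of the cuspidal class divides `p - 1`. -/
theorem nsmul_cuspClass {cI cZ : Place Qbar ↥(modularFunctionFieldBar p)} (hI : IsCuspInf cI) (hZ : IsCuspZero cZ) :
    (p - 1) • classOf cZ cI = 0 := by
  rw [nsmul_classOf_eq_zero_iff]
  obtain ⟨w, hw0, -, hw⟩ := exists_unit hI hZ
  exact ⟨w, hw0, hw⟩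

/-- A polynomial has at most as many roots as its degree. -/
theorem natCard_roots_le {K : Type*} [Field K] (P : Polynomial K) (hP : P ≠ 0) :
    Nat.card {x : K // P.IsRoot x} ≤ P.natDegree := by
  classical
  have h : Nat.card {x : K // P.IsRoot x} = P.roots.toFinset.card := by
    rw [← Fintype.card_coe, ← Nat.card_eq_fintype_card]
    exact Nat.card_congr (Equiv.subtypeEquivRight fun x => by
      rw [Multiset.mem_toFinset, Polynomial.mem_roots hP])
  rw [h]
  exact (Multiset.toFinset_card_le _).trans (Polynomial.card_roots' P)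

/-- `X₀(p)` has positive genus for `p ≥ 17`. -/
theorem genusFormula_pos [NeZero p] (hp : 17 ≤ p) : 0 < genusFormula p := by
  have hd2 : (Polynomial.X ^ 2 + 1 : Polynomial (ZMod p)).natDegree = 2 := by compute_degree!
  have hd3 : (Polynomial.X ^ 2 + Polynomial.X + 1 : Polynomial (ZMod p)).natDegree = 2 := by
    compute_degree!
  have h1 : nuTwo p ≤ 2 := by
    refine le_trans (le_of_eq ?_) ((natCard_roots_le _ (Polynomial.ne_zero_of_natDegree_gt
      (n := 1) (by rw [hd2]; norm_num))).trans hd2.le)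
    exact Nat.card_congr (Equiv.subtypeEquivRight fun x => by simp [Polynomial.IsRoot])
  have h2 : nuThree p ≤ 2 := by
    refine le_trans (le_of_eq ?_) ((natCard_roots_le _ (Polynomial.ne_zero_of_natDegree_gt
      (n := 1) (by rw [hd3]; norm_num))).trans hd3.le)
    exact Nat.card_congr (Equiv.subtypeEquivRight fun x => by simp [Polynomial.IsRoot])
  have hcusp : cuspCount p = 2 := by
    rw [cuspCount, (Fact.out : p.Prime).divisors,
      Finset.sum_pair (Fact.out : p.Prime).one_lt.ne]
    simp [(Fact.out : p.Prime).pos]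
  have hψ : p + 1 ≤ dedekindPsi p := by
    have hpp : p.Prime := Fact.out
    rw [dedekindPsi, hpp.divisors, Finset.filter_true_of_mem (fun d hd => by
      rcases Finset.mem_insert.1 hd with rfl | h
      · exact squarefree_one
      · rw [Finset.mem_singleton.1 h]; exact hpp.squarefree),
      Finset.sum_pair hpp.one_lt.ne, Nat.div_one, Nat.div_self hpp.pos]
  have h1' : (nuTwo p : ℚ) ≤ 2 := by exact_mod_cast h1
  have h2' : (nuThree p : ℚ) ≤ 2 := by exact_mod_cast h2
  have hψ' : (p : ℚ) + 1 ≤ dedekindPsi p := by exact_mod_cast hψ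
  have hp' : (17 : ℚ) ≤ p := by exact_mod_cast hp
  rw [genusFormula, hcusp]
  push_cast
  linarith

/-- The cuspidal class is non-zero. -/
theorem cuspClass_ne_zero (hp : 17 ≤ p) {cI cZ : Place Qbar ↥(modularFunctionFieldBar p)} (hI : IsCuspInf cI)
    (hZ : IsCuspZero cZ) : classOf cZ cI ≠ 0 := by
  classical
  have : NeZero p := ⟨(Fact.out : p.Prime).ne_zero⟩
  have hne := ne_of_isCusp hI hZ
  intro h0
  obtain ⟨f, hf0, hf⟩ := (nsmul_classOf_eq_zero_iff 1 cZ cI).1 (by rw [one_smul, h0])
  simp only [one_smul, diffDiv, Finsupp.sub_apply] at hf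
  have hpole : cI.ord f = -1 := by
    rw [← hf, Finsupp.single_eq_of_ne hne.symm, Finsupp.single_eq_same, zero_sub]
  have hreg : ∀ v, v ≠ cI → 0 ≤ v.ord f := fun v hv => by
    rw [← hf, Finsupp.single_eq_of_ne hv, sub_zero]
    rcases eq_or_ne v cZ with rfl | h
    · rw [Finsupp.single_eq_same]; omega
    · rw [Finsupp.single_eq_of_ne h]
  have htr : Transcendental Qbar f :=
    transcendental_of_ord_ne_zero cI (by omega)
  have := X0Analytic.finiteDimensional_jField (N := p) φc
  have := X0Analytic.isSeparable_jField (N := p) φc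
  set g := genusOf (X0Analytic.transcendental_jEl (N := p) φc) with hg
  have hg1 : 0 < g := by
    have h1 := genusFormula_pos (p := p) hp
    rw [← X0Analytic.genusOf_eq_genusFormula (N := p) φc, ← hg] at h1
    exact_mod_cast h1
  set D : Divisor Qbar ↥(modularFunctionFieldBar p) := Finsupp.single cI ((2 * g : ℕ) : ℤ) with hD
  have hdeg : Divisor.degree D = (2 * g : ℕ) := by
    rw [hD, Divisor.degree_single, deg_place]; push_cast; ring
  have hfin := finrank_eq_of_degree_gt (X0Analytic.transcendental_jEl (N := p) φc) (D := D)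
    (by rw [hdeg, ← hg]; push_cast; omega)
  rw [hdeg, ← hg] at hfin
  have hmem : ∀ i : Fin (2 * g + 1), f ^ (i : ℕ) ∈ riemannRochSpace D := fun i => by
    refine mem_riemannRochSpace_iff.2 fun v => Or.inr ?_
    rw [ord_pow, hD]
    rcases eq_or_ne v cI with rfl | h
    · rw [Finsupp.single_eq_same, hpole]
      have : (i : ℕ) ≤ 2 * g := Nat.lt_succ_iff.1 i.2
      push_cast
      omega
    · rw [Finsupp.single_eq_of_ne h, neg_zero]
      exact mul_nonneg (Int.natCast_nonneg _) (hreg v h)
  have hli : LinearIndependent Qbar fun i : Fin (2 * g + 1) =>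
      (⟨f ^ (i : ℕ), hmem i⟩ : riemannRochSpace D) := by
    refine LinearIndependent.of_comp (riemannRochSpace D).subtype ?_
    refine LinearIndependent.comp (v := fun n : ℕ => f ^ n) ?_ _ Fin.val_injective
    have := (Polynomial.basisMonomials Qbar).linearIndependent.map'
      (Polynomial.aeval f).toLinearMap (LinearMap.ker_eq_bot.2 (transcendental_iff_injective.1 htr))
    simpa [Function.comp_def] using this
  have hle := hli.fintype_card_le_finrank
  rw [Fintype.card_fin] at hle
  have h3 := (Int.ofNat_le.2 hle).trans hfin.le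
  push_cast at h3
  omega

/-- Modulo `ℓ ≥ 5` no small multiple of the cuspidal class reduces to zero. -/
theorem reductionModL_cuspClass_ne_zero {ℓ : ℕ} (hℓ : ℓ.Prime) (hℓ5 : 5 ≤ ℓ) (hℓp : ℓ ≠ p)
    {A : ValuationSubring Qbar} (hA : A.LiesOverPrime ℓ) {j : ℕ} (hj : ℓ * j ∣ p - 1)
    {cI cZ : Place Qbar ↥(modularFunctionFieldBar p)} (hI : IsCuspInf cI) (hZ : IsCuspZero cZ) :
    reductionModL A p (j • classOf cZ cI) ≠ 0 := by
  have hp : p.Prime := Fact.out
  have : NeZero p := ⟨hp.ne_zero⟩
  have := Fact.mk hℓ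
  have hℓp' : ¬ ℓ ∣ p := fun hd => hℓp ((Nat.prime_dvd_prime_iff_eq hℓ hp).1 hd)
  have : IsAlgClosed (ResidueField A) := Reduction.isAlgClosed_residueField
  have : CharP (ResidueField A) ℓ := Fermat.Agent.Frobenius.residueField_charP hℓ hA
  have hF := Reduction.reductionFacts hℓp' hA
  let M := Reduction.modularGoodModel A p hA hF
  have := Reduction.GoodModel.isFunctionField_red M
  have : HasPrincipalDivisors Qbar ↥(modularFunctionFieldBar p) := hasPrincipalDivisors
  have : HasPrincipalDivisors (ResidueField A) ↥(modularFunctionFieldFullC (ResidueField A) p) :=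
    hasPrincipalDivisors
  have h := Reduction.reductionInputsModL hA hF
  intro h0
  rw [nsmul_classOf, reductionModL_mk h] at h0
  have h1 := (QuotientAddGroup.eq_zero_iff _).mp h0
  rw [AddSubgroup.mem_addSubgroupOf, coe_reductionDegZeroAlong] at h1
  obtain ⟨g, hg0, hg⟩ := h1
  set R := Reduction.reductionMapOfSpec M (placeReductionModL h)
    (isPlaceReductionModL_placeReductionModL h)
  set r := placeReductionModL h
  obtain ⟨w, hw0, hw, hwdiv⟩ := exists_unit hI hZ
  set y : LaurentSeries A := coeffMap (Int.castRingHom A) (XHLite.unitSer p : LaurentSeries ℤ)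
    with hy
  have hwy : (w : LaurentSeries Qbar) = ιS A y := by
    rw [hw, hy]
    show _ = coeffMap A.subtype _
    rw [coeffMap_coeffMap]
    exact coeffMap_congr (RingHom.ext_int _ _) _
  obtain ⟨hwi, hwr⟩ := M.isInt_series hwy
  have hred : (M.red w : LaurentSeries (ResidueField A)) =
      coeffMap (Int.castRingHom (ResidueField A)) (XHLite.unitSer p : LaurentSeries ℤ) := by
    rw [hwr, hy]
    show coeffMap (residue A) _ = _
    rw [coeffMap_coeffMap]
    exact coeffMap_congr (RingHom.ext_int _ _) _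
  have hred0 : M.red w ≠ 0 := fun e => by
    have h2 := (Units.map (coeffMap (Int.castRingHom (ResidueField A))).toMonoidHom
      (XHLite.unitSer p)).ne_zero
    exact h2 (by rw [e] at hred; exact hred.symm)
  have hspec := R.spec w hwi hred0
  obtain ⟨d, hd⟩ := hj
  have hpow : dvs (K := ResidueField A) (M.red w) = dvs (K := ResidueField A) (g ^ (ℓ * d)) := by
    rw [dvs_pow, ← eq_dvs hg, ← hspec, ← eq_dvs hwdiv]
    show Finsupp.mapDomain r _ = (ℓ * d) • Finsupp.mapDomain r (j • diffDiv cZ cI)
    rw [hd, ← Finsupp.mapDomain.addMonoidHom_apply, ← Finsupp.mapDomain.addMonoidHom_apply,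
      map_nsmul, map_nsmul, ← mul_nsmul', mul_right_comm]
  obtain ⟨c, hc⟩ := exists_algebraMap_eq_of_forall_ord_nonneg (K := ResidueField A)
    (F := ↥(modularFunctionFieldFullC (ResidueField A) p))
    (f := M.red w / g ^ (ℓ * d)) fun v => by
      rw [div_eq_mul_inv, v.ord_mul hred0 (inv_ne_zero (pow_ne_zero _ hg0)), v.ord_inv,
        ← dvs_apply, hpow, dvs_apply, add_neg_cancel]
  rw [div_eq_iff (pow_ne_zero _ hg0)] at hc
  refine unit_ne_pow (ResidueField A) ℓ hℓ hℓ5 p hp.two_le c
    ((g : LaurentSeries (ResidueField A)) ^ d) ?_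
  rw [← hred, hc, ← pow_mul, mul_comm ℓ d, MulMemClass.coe_mul, SubmonoidClass.coe_pow,
    IntermediateField.coe_algebraMap_apply, algebraMap_laurentSeries_eq_single]

end Fermat.Agent.Mazur.Cusp
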