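import Fermat.Agent.Mazur.Moduli
import Fermat.Agent.Mazur.Cusp.Unit
import Fermat.Agent.Mazur.Cusp.Hecke

/-!
# The moduli place with its reductions

The moduli point as a place: at a multiplicative prime it has the same reduction as the cusp
prescribed by the component of the point, so the corresponding difference is a null class.
-/

set_option autoImplicit false

noncomputable section

open AlgebraicCurve ModularCurve WeierstrassCurve WeierstrassCurve.Affine

namespace Fermat.Agent.Mazur.Cusp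

open Fermat.Agent.Mazur.Moduli

local notation "Qbar" => AlgebraicClosure ℚ

variable {p : ℕ} [Fact p.Prime]

/-- Places with the same reduction give a null class. -/
theorem classOf_mem_nullClasses [NeZero p] {A : ValuationSubring Qbar}
    {h : ReductionInputsModL A p} {P Q : Place Qbar ↥(modularFunctionFieldBar p)}
    (he : placeReductionModL h P = placeReductionModL h Q) : classOf P Q ∈ nullClasses h := by
  refine ⟨_, (classOf_eq_mk P Q).symm, ?_⟩
  show Finsupp.mapDomain (placeReductionModL h) (diffDiv P Q) = 0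
  rw [diffDiv, Finsupp.mapDomain_sub, Finsupp.mapDomain_single, Finsupp.mapDomain_single, he,
    sub_self]

/-- The moduli place. -/
theorem exists_moduli_place [NeZero p] (hp : 17 ≤ p) (W : WeierstrassCurve ℤ) (hΔ : W.Δ ≠ 0)
    (hmult : ∃ ℓ₀ : ℕ, ℓ₀.Prime ∧ (ℓ₀ : ℤ) ∣ W.Δ ∧ ¬ (ℓ₀ : ℤ) ∣ W.c₄)
    (Q : ((W.map (Int.castRingHom ℚ))⁄Qbar).Point) (hQfix : ∀ σ : Qbar ≃ₐ[ℚ] Qbar, σ • Q = Q)
    (hQ : addOrderOf Q = p) {cI cZ : Place Qbar ↥(modularFunctionFieldBar p)}
    (hI : IsCuspInf cI) (hZ : IsCuspZero cZ) :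
    ∃ x : Place Qbar ↥(modularFunctionFieldBar p),
      (∀ σ : Qbar ≃ₐ[ℚ] Qbar, σ • classOf x cI = classOf x cI) ∧
      ∀ ℓ : ℕ, ℓ.Prime → ℓ ≠ p → (ℓ : ℤ) ∣ W.Δ → ¬ (ℓ : ℤ) ∣ W.c₄ →
        ∀ A : ValuationSubring Qbar, A.LiesOverPrime ℓ → ∀ h : ReductionInputsModL A p,
          (¬ W.InZeroComponentAt A Q → classOf x cZ ∈ nullClasses h) ∧
          (W.InZeroComponentAt A Q → classOf x cI ∈ nullClasses h) := by
  obtain ⟨ζ, hζ, hprim⟩ := exists_zeta (p := p) φc
  obtain ⟨h0, h1⟩ := jInv_ne hΔ hmult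
  obtain ⟨x, μ, hμ, hxfix, hxj, hxG⟩ := exists_place φc hζ hprim W hΔ h0 h1 Q hQfix hQ
  refine ⟨x, fun σ => by rw [smul_classOf, hxfix σ, galAut_smul_cuspInf σ hI],
    fun ℓ hℓ hℓp hd hn A hA h => ?_⟩
  have := Fact.mk hℓ
  have hcf := vanishesTo_mul_inv_pow (g := pairValue W Q μ) h0 hxj hxG (pairSet p).card
  obtain ⟨hv0, hv1⟩ := v_pairValue W hℓ hℓp hA hΔ hd hn hQ (by omega : 5 ≤ p) hμ
  have hc : A.valuation (jInv W)⁻¹ < 1 := by
    rw [jInv, inv_div, map_div₀, map_pow, MultRed.vint_eq_one hℓ hA hn, one_pow, div_one]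
    exact MultRed.vint_lt_one hA hd
  obtain ⟨hr0, hr1⟩ := reduce_place φc hζ hprim (by omega) hℓ hℓp hA h hI hZ h0 hc hxj hcf
  exact ⟨fun hin => classOf_mem_nullClasses (hr0 (hv0 hin)),
    fun hin => classOf_mem_nullClasses (hr1 (hv1 hin))⟩

end Fermat.Agent.Mazur.Cusp
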